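import Mathlib
import Fermat.Prelude.Def_FreyPackage_EigenformResidualAttachment
import Fermat.Prelude.Def_GaloisRep_Residual
import Fermat.Agent.S13.FreyTwo
import Fermat.Agent.S13.RatPoly

/-!
# S42 from S29

The residual attachment statement for the Frey package at every level follows formally from
the existence of residual Galois representations attached to weight-two eigenforms (the S29
statement, taken here as a hypothesis `h29` so that this file does not depend on its proof).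

The only extra input is a finite level fixing the `p`-torsion of the Frey curve, which comes
from the two generators of `E[p]` (`Fermat.Agent.S13.frey_dim_two`).
-/

set_option autoImplicit false

open Polynomial WeierstrassCurve WeierstrassCurve.Affine WeierstrassCurve.Affine.Point

namespace Fermat.Agent.S42.FromS29

local notation "Qb" => AlgebraicClosure ℚ

/-- Trace and determinant of an endomorphism of a plane, read off its characteristic
polynomial. -/
theorem trace_det_of_charpoly {K V : Type} [Field K] [AddCommGroup V] [Module K V]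
    [Module.Finite K V]
    (hV : Module.finrank K V = 2) (f : Module.End K V) (t d : K)
    (h : LinearMap.charpoly f = X ^ 2 - C t * X + C d) :
    LinearMap.trace K V f = t ∧ LinearMap.det f = d := by
  let b := Module.Free.chooseBasis K V
  have hcard : Fintype.card (Module.Free.ChooseBasisIndex K V) = 2 := by
    rw [← Module.finrank_eq_card_chooseBasisIndex, hV]
  have hcp : (LinearMap.toMatrix b b f).charpoly = X ^ 2 - C t * X + C d := by
    rw [← h]; rfl
  constructor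
  · rw [LinearMap.trace_eq_matrix_trace K b f, Matrix.trace_eq_neg_charpoly_nextCoeff, hcp]
    have hnd : (X ^ 2 - C t * X + C d : K[X]).natDegree = 2 := by
      compute_degree!
    rw [Polynomial.nextCoeff_of_natDegree_pos (by rw [hnd]; norm_num), hnd]
    simp [Polynomial.coeff_C]
  · rw [← LinearMap.det_toMatrix b f, Matrix.det_eq_sign_charpoly_coeff, hcp, hcard]
    simp [Polynomial.coeff_C]

/-- A point of an elliptic curve is fixed by every automorphism fixing a suitable finite set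
(its coordinates). -/
theorem exists_finset_fix (E : WeierstrassCurve ℚ) (T : (E⁄Qb).Point) :
    ∃ S : Finset Qb, ∀ σ : Qb ≃ₐ[ℚ] Qb, (∀ x ∈ S, σ x = x) → σ • T = T := by
  cases T with
  | zero => exact ⟨∅, fun σ _ => rfl⟩
  | some x y h =>
    refine ⟨{x, y}, fun σ hσ => ?_⟩
    rw [Fermat.Agent.S13.RatPoly.smul_some E σ h]
    have hx : σ x = x := hσ x (by simp)
    have hy : σ y = y := hσ y (by simp)
    simp only [hx, hy]

/-- A finite level fixing the `p`-torsion of the Frey curve pointwise. -/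
theorem exists_level_frey (P : FreyPackage) :
    ∃ L : IntermediateField ℚ Qb, FiniteDimensional ℚ L ∧
      ∀ σ : Qb ≃ₐ[ℚ] Qb, (∀ x ∈ L, σ x = x) →
        ∀ T : (P.freyCurve⁄Qb).Point, P.p • T = 0 → σ • T = T := by
  obtain ⟨T₁, T₂, -, -, hgen⟩ := Fermat.Agent.S13.frey_dim_two P
  obtain ⟨S₁, hS₁⟩ := exists_finset_fix P.freyCurve T₁
  obtain ⟨S₂, hS₂⟩ := exists_finset_fix P.freyCurve T₂
  refine ⟨IntermediateField.adjoin ℚ ((S₁ ∪ S₂ : Finset Qb) : Set Qb), ?_, ?_⟩
  · have hfin : Finite ((S₁ ∪ S₂ : Finset Qb) : Set Qb) := (Finset.finite_toSet _).to_subtype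
    have hint : Algebra.IsIntegral ℚ Qb := (AlgebraicClosure.isAlgebraic ℚ).isIntegral
    exact IntermediateField.finiteDimensional_adjoin
      (fun x _ => Algebra.IsIntegral.isIntegral x)
  · intro σ hσ T hT
    obtain ⟨i, j, rfl⟩ := hgen T hT
    have h1 : σ • T₁ = T₁ := hS₁ σ fun x hx =>
      hσ x (IntermediateField.subset_adjoin ℚ _ (by simp [hx]))
    have h2 : σ • T₂ = T₂ := hS₂ σ fun x hx =>
      hσ x (IntermediateField.subset_adjoin ℚ _ (by simp [hx]))
    have hadd : σ • (i • T₁ + j • T₂) = σ • (i • T₁) + σ • (j • T₂) :=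
      (Point.map (W' := P.freyCurve) σ.toAlgHom).map_add _ _
    rw [hadd, Fermat.Agent.S13.FreyTwo.smul_nsmul', Fermat.Agent.S13.FreyTwo.smul_nsmul',
      h1, h2]

/-- Elements of the kernel of restriction to a normal intermediate field fix it pointwise. -/
theorem restrictNormalHom_ker_fixes (L : IntermediateField ℚ Qb) [Normal ℚ L]
    (σ : Qb ≃ₐ[ℚ] Qb) (hσ : σ ∈ (AlgEquiv.restrictNormalHom (F := ℚ) (K₁ := Qb) L).ker)
    (x : Qb) (hx : x ∈ L) : σ x = x := by
  rw [MonoidHom.mem_ker] at hσ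
  have h1 := AlgEquiv.restrictNormal_commutes σ L ⟨x, hx⟩
  have h2 : σ.restrictNormal L = 1 := hσ
  rw [h2] at h1
  exact h1.symm

/-- A finite normal intermediate field, packaged as a Galois number field inside `Qb`. -/
theorem exists_numberField_of_level (L : IntermediateField ℚ Qb) [FiniteDimensional ℚ L]
    [Normal ℚ L] :
    ∃ (F : Type) (_ : Field F) (_ : NumberField F) (_ : IsGalois ℚ F)
      (_ : Algebra F Qb) (_ : IsScalarTower ℚ F Qb),
      ∀ σ ∈ (AlgEquiv.restrictNormalHom (F := ℚ) (K₁ := Qb) F).ker, ∀ x ∈ L, σ x = x := by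
  have hNF : NumberField ↥L := NumberField.of_module_finite ℚ ↥L
  have hG0 : IsGalois ℚ ↥L := isGalois_iff.mpr ⟨inferInstance, inferInstance⟩
  refine ⟨↥L, inferInstance, hNF, ?_, inferInstance, ?_, ?_⟩
  · exact hG0
  · exact (inferInstance : IsScalarTower ℚ ↥L Qb)
  · intro σ hσ x hx
    exact restrictNormalHom_ker_fixes L σ hσ x hx

/-- Two finite levels are contained in a Galois number field inside `Qb`. -/
theorem exists_numberField_of_levels (L₁ L₂ : IntermediateField ℚ Qb)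
    (h₁ : FiniteDimensional ℚ L₁) (h₂ : FiniteDimensional ℚ L₂) :
    ∃ (F : Type) (_ : Field F) (_ : NumberField F) (_ : IsGalois ℚ F)
      (_ : Algebra F Qb) (_ : IsScalarTower ℚ F Qb),
      ∀ σ ∈ (AlgEquiv.restrictNormalHom (F := ℚ) (K₁ := Qb) F).ker,
        (∀ x ∈ L₁, σ x = x) ∧ (∀ x ∈ L₂, σ x = x) := by
  have hcl : IsAlgClosure ℚ Qb := AlgebraicClosure.instIsAlgClosure ℚ
  have hnQ : Normal ℚ Qb := IsAlgClosure.normal ℚ Qb
  have hfd : FiniteDimensional ℚ ↥(L₁ ⊔ L₂) := IntermediateField.finiteDimensional_sup L₁ L₂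
  let L : IntermediateField ℚ Qb := IntermediateField.normalClosure ℚ ↥(L₁ ⊔ L₂) Qb
  have hfL : FiniteDimensional ℚ ↥L := normalClosure.is_finiteDimensional ℚ ↥(L₁ ⊔ L₂) Qb
  have hnL : Normal ℚ ↥L := normalClosure.normal ℚ ↥(L₁ ⊔ L₂) Qb
  have hle : L₁ ⊔ L₂ ≤ L := IntermediateField.le_normalClosure (L₁ ⊔ L₂)
  obtain ⟨F, iF, iNF, iG, iA, iT, hF⟩ := exists_numberField_of_level L
  exact ⟨F, iF, iNF, iG, iA, iT, fun σ hσ =>
    ⟨fun x hx => hF σ hσ x (hle (le_sup_left (a := L₁) (b := L₂) hx)),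
     fun x hx => hF σ hσ x (hle (le_sup_right (a := L₁) (b := L₂) hx))⟩⟩

/-- **S42 from S29**: the residual attachment statement for a Frey package, at every level,
given residual Galois representations attached to weight-two eigenforms. -/
theorem attachment_of_residual
    (h29 : ∀ {N : ℕ} {g : CuspForm (CongruenceSubgroup.Gamma0 N) 2}
      (_ : g.IsNormalizedEigenform) {p : ℕ} (_ : p.Prime) {k : Type} [Field k] [CharP k p]
      (φ : integralClosure ℤ ℂ →+* k),
      ∃ ρ : ResidualGaloisRep k, ρ.IsAttachedTo g φ ∧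
        ∀ ℓ : ℕ, ℓ.Prime → ¬ ℓ ∣ N * p → ρ.IsUnramifiedAt ℓ)
    (P : FreyPackage) : ∀ M : ℕ, 0 < M → P.EigenformResidualAttachmentAt M := by
  intro M _ g hg 𝔪 h𝔪 hp𝔪
  let iK : Field (integralClosure ℤ ℂ ⧸ 𝔪) := Ideal.Quotient.field 𝔪
  have hp0 : ((P.p : ℕ) : integralClosure ℤ ℂ ⧸ 𝔪) = 0 := by
    have := Ideal.Quotient.eq_zero_iff_mem.mpr hp𝔪
    rwa [map_natCast] at this
  have iCh : CharP (integralClosure ℤ ℂ ⧸ 𝔪) P.p :=
    (CharP.charP_iff_prime_eq_zero P.pp).mpr hp0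
  obtain ⟨ρ0, hatt, -⟩ := h29 hg P.pp (Ideal.Quotient.mk 𝔪)
  obtain ⟨L₁, hL₁, hρL⟩ := ρ0.factorsThroughFiniteLevel
  obtain ⟨L₂, hL₂, hEL⟩ := exists_level_frey P
  obtain ⟨F, iF, iNF, iG, iA, iT, hF⟩ := exists_numberField_of_levels L₁ L₂ hL₁ hL₂
  have hℓ : ∀ ℓ : ℕ, ℓ.Prime → ℓ ≠ P.p → ((ℓ : ℕ) : integralClosure ℤ ℂ ⧸ 𝔪) ≠ 0 := by
    intro ℓ hℓ hne h0
    have hdvd : P.p ∣ ℓ := (CharP.cast_eq_zero_iff (integralClosure ℤ ℂ ⧸ 𝔪) P.p ℓ).mp h0
    exact hne ((Nat.prime_dvd_prime_iff_eq P.pp hℓ).mp hdvd).symm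
  refine ⟨integralClosure ℤ ℂ ⧸ 𝔪, iK, ZMod.algebra _ P.p, ρ0.V, ρ0.instAddCommGroup,
    ρ0.instModule, ρ0.ρ, Ideal.Quotient.mk 𝔪, F, iF, iNF, iG, iA, iT, ?_, ρ0.finrank_eq, ?_, ?_, ?_⟩
  · rw [Ideal.mk_ker]
  · intro σ hσ
    obtain ⟨h1, h2⟩ := hF σ hσ
    refine Subgroup.mem_inf.mpr ⟨?_, ?_⟩
    · refine MonoidHom.mem_ker.mpr ?_
      refine LinearMap.ext fun T => Subtype.ext ?_
      have hT : P.p • (T : (P.freyCurve⁄Qb).Point) = 0 := by
        have := (Submodule.mem_torsionBy_iff _ _).mp T.2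
        rwa [Nat.cast_smul_eq_nsmul] at this
      exact hEL σ h2 T hT
    · exact MonoidHom.mem_ker.mpr (hρL σ h1)
  · intro ℓ hℓp hℓM hℓne A hA τ hτ
    obtain ⟨a, ha, hcp⟩ := hatt ℓ hℓp hℓM (hℓ ℓ hℓp hℓne) A hA τ hτ
    exact ⟨a, ha, (trace_det_of_charpoly ρ0.finrank_eq (ρ0.ρ τ) _ _ hcp).1⟩
  · intro ℓ hℓp hℓM hℓne A hA τ hτ
    obtain ⟨a, ha, hcp⟩ := hatt ℓ hℓp hℓM (hℓ ℓ hℓp hℓne) A hA τ hτ
    exact (trace_det_of_charpoly ρ0.finrank_eq (ρ0.ρ τ) _ _ hcp).2

end Fermat.Agent.S42.FromS29
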